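import Fermat.Agent.Row24.Proper.Extend
import Fermat.Agent.Row24.Chart.Tensor
import Fermat.Agent.Row24.Crit.HomUnique
import Fermat.Agent.Row24.Crit.LiftBundles
import Fermat.Agent.Row24.Dict.Interface

/-!
# The difference of classes from the dictionary with glued bundles

Through a dictionary, the tensor product with the dual of glued bundles gives a difference
operation on classes of rigidified bundles over affine test schemes.
-/

set_option autoImplicit false

noncomputable section

universe u

open CategoryTheory CategoryTheory.Limits AlgebraicGeometry AlgebraicGeometry.RelPicard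
  NeronModelInfra GoodReductionJacobian

namespace Fermat.Agent.Row24

variable {k : Type u} [Field k] {C : Scheme.{u}} {c : C ⟶ Spec (CommRingCat.of k)}
  {ε : SchemeHomOver (𝟙 (Spec (CommRingCat.of k))) c}

theorem classesMap_of_eq_id {T : Scheme.{u}} {t : T ⟶ Spec (CommRingCat.of k)}
    (θ : SchemeHomOver t t) (hθ : θ.1 = 𝟙 T) (a : RigidifiedLineBundle.Classes c ε t) :
    RigidifiedLineBundle.classesMap θ a = a := by
  have : θ = ⟨𝟙 T, Category.id_comp t⟩ := Subtype.ext hθ
  subst this
  induction a using Quotient.ind with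
  | _ M =>
    exact Quotient.sound ⟨(Scheme.Modules.pullbackCongr (baseChangeSnd_id c t)).app M.L ≪≫
      (Scheme.Modules.pullbackId _).app M.L⟩

namespace Dict.Dictionary

open Chart

variable {R : CurveRings k} (Δ : Dict.Dictionary c ε R)

section Alg

variable (A : Type u) [CommRing A] [Algebra k A]

theorem exists_diffBundle (M M' : RigidifiedLineBundle c ε (affStr k A)) :
    ∃ N, Nonempty (Glued.Iso (Δ.glued A N) ((Δ.glued A M).diff (Δ.glued A M'))) :=
  Δ.exists_bundle A _ ((Δ.rigid A M).diff (Δ.rigid A M'))

/-- A bundle whose glued modules are the difference. -/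
def diffBundle (M M' : RigidifiedLineBundle c ε (affStr k A)) :
    RigidifiedLineBundle c ε (affStr k A) :=
  (Δ.exists_diffBundle A M M').choose

theorem glued_diffBundle (M M' : RigidifiedLineBundle c ε (affStr k A)) :
    Nonempty (Glued.Iso (Δ.glued A (Δ.diffBundle A M M'))
      ((Δ.glued A M).diff (Δ.glued A M'))) :=
  (Δ.exists_diffBundle A M M').choose_spec

/-- The difference of classes over an algebra. -/
def affDiff : RigidifiedLineBundle.Classes c ε (affStr k A) →
    RigidifiedLineBundle.Classes c ε (affStr k A) →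
      RigidifiedLineBundle.Classes c ε (affStr k A) :=
  Quotient.lift₂ (fun M M' => Quotient.mk _ (Δ.diffBundle A M M'))
    fun M M' N N' hM hM' => Quotient.sound ((Δ.iso_iff A _ _).1 (by
      obtain ⟨e⟩ := (Δ.iso_iff A M N).2 hM
      obtain ⟨e'⟩ := (Δ.iso_iff A M' N').2 hM'
      obtain ⟨g⟩ := Δ.glued_diffBundle A M M'
      obtain ⟨g'⟩ := Δ.glued_diffBundle A N N'
      exact ⟨g.trans ((e.diff e').trans g'.symm)⟩))

theorem affDiff_self (x : RigidifiedLineBundle.Classes c ε (affStr k A)) :
    Δ.affDiff A x x = unitCls _ := by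
  induction x using Quotient.ind with
  | _ M =>
    obtain ⟨g⟩ := Δ.glued_diffBundle A M M
    obtain ⟨g₀⟩ := Δ.unit_iso A
    exact Quotient.sound ((Δ.iso_iff A _ _).1
      ⟨g.trans ((Glued.Iso.diffSelf _).trans g₀.symm)⟩)

theorem affDiff_unit (x : RigidifiedLineBundle.Classes c ε (affStr k A)) :
    Δ.affDiff A x (unitCls _) = x := by
  induction x using Quotient.ind with
  | _ M =>
    obtain ⟨g⟩ := Δ.glued_diffBundle A M (RigidifiedLineBundle.unit (affStr k A))
    obtain ⟨g₀⟩ := Δ.unit_iso A
    exact Quotient.sound ((Δ.iso_iff A _ _).1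
      ⟨g.trans (((Glued.Iso.refl _).diff g₀).trans (Glued.Iso.diffTrivial _))⟩)

theorem eq_of_affDiff (x y : RigidifiedLineBundle.Classes c ε (affStr k A))
    (h : Δ.affDiff A x y = unitCls _) : x = y := by
  induction x using Quotient.ind with
  | _ M =>
    induction y using Quotient.ind with
    | _ M' =>
      obtain ⟨g⟩ := Δ.glued_diffBundle A M M'
      obtain ⟨g₀⟩ := Δ.unit_iso A
      obtain ⟨e⟩ := (Δ.iso_iff A _ _).2 (Quotient.exact h)
      exact Quotient.sound ((Δ.iso_iff A _ _).1
        ⟨Glued.Iso.ofDiff (g.symm.trans (e.trans g₀))⟩)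

theorem classesMap_affDiff {A' : Type u} [CommRing A'] [Algebra k A'] (φ : A →ₐ[k] A')
    (x y : RigidifiedLineBundle.Classes c ε (affStr k A)) :
    RigidifiedLineBundle.classesMap (Dict.affHom φ) (Δ.affDiff A x y) =
      Δ.affDiff A' (RigidifiedLineBundle.classesMap (Dict.affHom φ) x)
        (RigidifiedLineBundle.classesMap (Dict.affHom φ) y) := by
  induction x using Quotient.ind with
  | _ M =>
    induction y using Quotient.ind with
    | _ M' =>
      obtain ⟨g⟩ := Δ.glued_diffBundle A M M'
      obtain ⟨g'⟩ := Δ.glued_diffBundle A' (M.pullbackAlong (Dict.affHom φ))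
        (M'.pullbackAlong (Dict.affHom φ))
      obtain ⟨f⟩ := Δ.nonempty_hom A A' φ (Δ.diffBundle A M M')
      obtain ⟨f₁⟩ := Δ.nonempty_hom A A' φ M
      obtain ⟨f₂⟩ := Δ.nonempty_hom A A' φ M'
      obtain ⟨e⟩ := Crit.nonempty_iso_of_hom f (Crit.isoCompHom g (f₁.diff f₂))
      exact Quotient.sound ((Δ.iso_iff A' _ _).1 ⟨e.trans g'.symm⟩)

end Alg

section Spec

variable {A : CommRingCat.{u}} (a : Spec A ⟶ Spec (CommRingCat.of k))

/-- The algebra structure of an affine test scheme. -/
abbrev algOf : Algebra k A := (Spec.preimage a).hom.toAlgebra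

theorem affStr_algOf : @affStr k _ A _ (algOf a) = a := Spec.map_preimage a

/-- Towards the test scheme of the algebra. -/
def fromAlg : SchemeHomOver (@affStr k _ A _ (algOf a)) a :=
  ⟨𝟙 _, (Category.id_comp _).trans (affStr_algOf a).symm⟩

/-- From the test scheme of the algebra. -/
def toAlg : SchemeHomOver a (@affStr k _ A _ (algOf a)) :=
  ⟨𝟙 _, (Category.id_comp _).trans (affStr_algOf a)⟩

/-- The difference of classes over an affine test scheme. -/
def specDiff (x y : RigidifiedLineBundle.Classes c ε a) : RigidifiedLineBundle.Classes c ε a :=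
  letI := algOf a
  RigidifiedLineBundle.classesMap (toAlg a)
    (Δ.affDiff A (RigidifiedLineBundle.classesMap (fromAlg a) x)
      (RigidifiedLineBundle.classesMap (fromAlg a) y))

theorem classesMap_fromAlg_toAlg (x : RigidifiedLineBundle.Classes c ε a) :
    RigidifiedLineBundle.classesMap (toAlg a) (RigidifiedLineBundle.classesMap (fromAlg a) x) =
      x :=
  (classesMap_classesMap _ _ ⟨𝟙 _, Category.id_comp a⟩ (Category.id_comp _) x).trans
    (classesMap_of_eq_id _ rfl x)

theorem classesMap_toAlg_fromAlg
    (x : RigidifiedLineBundle.Classes c ε (@affStr k _ A _ (algOf a))) :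
    RigidifiedLineBundle.classesMap (fromAlg a) (RigidifiedLineBundle.classesMap (toAlg a) x) =
      x :=
  (classesMap_classesMap _ _ ⟨𝟙 _, Category.id_comp _⟩ (Category.id_comp _) x).trans
    (classesMap_of_eq_id _ rfl x)

end Spec

variable [IsAlgClosed k]

/-- **Differences of classes over affine test schemes.** -/
def affineClassDiff : AffineClassDiff c ε where
  diff a := Δ.specDiff a
  map_diff {A A' a a'} ψ x y := by
    let := algOf a
    let := algOf a'
    have hcomp : Spec.preimage a ≫ Spec.preimage ψ.1 = Spec.preimage a' := by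
      apply Spec.map_injective
      rw [Spec.map_comp, Spec.map_preimage, Spec.map_preimage, Spec.map_preimage, ψ.2]
    let φ : A →ₐ[k] A' :=
      { (Spec.preimage ψ.1).hom with
        commutes' := fun r => congr($(hcomp) r) }
    have hφ : (Dict.affHom φ).1 = ψ.1 := Spec.map_preimage ψ.1
    let θ : SchemeHomOver a' (affStr k A) :=
      ⟨ψ.1, (congrArg (ψ.1 ≫ ·) (affStr_algOf a)).trans ψ.2⟩
    let η : SchemeHomOver (affStr k A') a := ⟨ψ.1, ψ.2.trans (affStr_algOf a').symm⟩
    have key : ∀ z : RigidifiedLineBundle.Classes c ε a,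
        RigidifiedLineBundle.classesMap (Dict.affHom φ)
            (RigidifiedLineBundle.classesMap (fromAlg a) z) =
          RigidifiedLineBundle.classesMap (fromAlg a')
            (RigidifiedLineBundle.classesMap ψ z) := fun z => by
      rw [classesMap_classesMap (fromAlg a) (Dict.affHom φ) η
          ((Category.comp_id _).trans hφ) z,
        classesMap_classesMap ψ (fromAlg a') η (Category.id_comp _) z]
    show RigidifiedLineBundle.classesMap ψ (RigidifiedLineBundle.classesMap (toAlg a) _) =
      RigidifiedLineBundle.classesMap (toAlg a') _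
    rw [← key x, ← key y, ← Δ.classesMap_affDiff A φ,
      classesMap_classesMap (toAlg a) ψ θ (Category.comp_id _),
      classesMap_classesMap (Dict.affHom φ) (toAlg a') θ ((Category.id_comp _).trans hφ)]
  diff_self {A} a x := by
    let := algOf a
    show RigidifiedLineBundle.classesMap (toAlg a) _ = _
    rw [Δ.affDiff_self, classesMap_unitCls]
  diff_unit {A} a x := by
    let := algOf a
    show RigidifiedLineBundle.classesMap (toAlg a) _ = _
    rw [classesMap_unitCls, Δ.affDiff_unit, classesMap_fromAlg_toAlg]
  eq_of_diff {A} a x y h := by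
    let := algOf a
    have h' := congrArg (RigidifiedLineBundle.classesMap (fromAlg a)) h
    rw [classesMap_unitCls] at h'
    have h'' := Δ.eq_of_affDiff A _ _ ((classesMap_toAlg_fromAlg a _).symm.trans h')
    have h3 := congrArg (RigidifiedLineBundle.classesMap (toAlg a)) h''
    rwa [classesMap_fromAlg_toAlg, classesMap_fromAlg_toAlg] at h3

/-- **Differences of classes from a dictionary and the sheaf property.** -/
def classDiff (hsep : BundlesSeparated c ε) (hglue : BundlesGlue c ε) : ClassDiff c ε :=
  Δ.affineClassDiff.extend hsep hglue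

end Dict.Dictionary

end Fermat.Agent.Row24

end
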