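import Fermat.Agent.Row24.Proper.Diff
import Fermat.Agent.Row24.Assembly

/-!
# Properness for the Jacobian from the dictionary

Iterated differences of point classes are computed on glued bundles over the base field; when they
exhaust the classes satisfying the cut, the piece of zero is proper.
-/

set_option autoImplicit false

noncomputable section

universe u

open CategoryTheory CategoryTheory.Limits AlgebraicGeometry AlgebraicGeometry.RelPicard
  NeronModelInfra GoodReductionJacobian

namespace Fermat.Agent.Row24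

variable {k : Type u} [Field k] {C : Scheme.{u}} {c : C ⟶ Spec (CommRingCat.of k)}
  {ε : SchemeHomOver (𝟙 (Spec (CommRingCat.of k))) c}

/-- Iterated differences commute with base change. -/
theorem ClassDiff.map_foldl (Δ : ClassDiff c ε) {T T' : Scheme.{u}}
    {t : T ⟶ Spec (CommRingCat.of k)} {t' : T' ⟶ Spec (CommRingCat.of k)}
    (ψ : SchemeHomOver t' t) {ι : Type*} (l : List ι) (x : ι → RigidifiedLineBundle.Classes c ε t)
    (b : RigidifiedLineBundle.Classes c ε t) :
    RigidifiedLineBundle.classesMap ψ (l.foldl (fun b i => Δ.diff t b (x i)) b) =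
      l.foldl (fun b i => Δ.diff t' b (RigidifiedLineBundle.classesMap ψ (x i)))
        (RigidifiedLineBundle.classesMap ψ b) := by
  induction l generalizing b with
  | nil => rfl
  | cons i l ih => rw [List.foldl_cons, List.foldl_cons, ih, Δ.map_diff]

/-- The spectrum of the field over itself. -/
theorem affStr_self_eq : Dict.affStr k k = 𝟙 (Spec (CommRingCat.of k)) := by
  show Spec.map (CommRingCat.ofHom (algebraMap k k)) = _
  exact Spec.map_id _

namespace Dict.Dictionary

open Chart

variable {R : CurveRings k} (Δ : Dict.Dictionary c ε R)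

theorem specDiff_affStr [IsAlgClosed k] (hsep : BundlesSeparated c ε) (hglue : BundlesGlue c ε)
    (A : Type u) [inst : CommRing A] [iA : Algebra k A]
    (x y : RigidifiedLineBundle.Classes c ε (affStr k A)) :
    (Δ.classDiff hsep hglue).diff (affStr k A) x y = Δ.affDiff A x y := by
  refine (Δ.affineClassDiff.extend_diff_affine hsep hglue (affStr k A) x y).trans ?_
  show Δ.specDiff (affStr k A) x y = _
  have key : ∀ (a : Spec (CommRingCat.of A) ⟶ Spec (CommRingCat.of k)) (i : Algebra k A)
      (h : @affStr k _ A _ i = a) (u v : RigidifiedLineBundle.Classes c ε a)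
      (θ : SchemeHomOver (@affStr k _ A _ i) a) (θ' : SchemeHomOver a (@affStr k _ A _ i)),
      θ.1 = 𝟙 _ → θ'.1 = 𝟙 _ → Δ.specDiff a u v =
        RigidifiedLineBundle.classesMap θ' (@Dict.Dictionary.affDiff _ _ _ _ _ _ Δ A _ i
          (RigidifiedLineBundle.classesMap θ u) (RigidifiedLineBundle.classesMap θ v)) := by
    intro a i h u v θ θ' hθ hθ'
    have hi : i = algOf a := by
      refine Algebra.algebra_ext _ _ fun r => ?_
      have e : CommRingCat.ofHom (@algebraMap k A _ _ i) = Spec.preimage a :=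
        Spec.map_injective (h.trans (Spec.map_preimage a).symm)
      exact congr($(e) r)
    subst hi
    obtain rfl : θ = fromAlg a := Subtype.ext hθ
    obtain rfl : θ' = toAlg a := Subtype.ext hθ'
    rfl
  refine (key (affStr k A) iA rfl x y ⟨𝟙 _, Category.id_comp _⟩ ⟨𝟙 _, Category.id_comp _⟩
    rfl rfl).trans ?_
  rw [classesMap_of_eq_id _ rfl, classesMap_of_eq_id _ rfl, classesMap_of_eq_id _ rfl]

/-- Iterated differences are computed by glued bundles. -/
theorem exists_foldl_affDiff (A : Type u) [CommRing A] [Algebra k A] {ι : Type*} (l : List ι)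
    (M : ι → RigidifiedLineBundle c ε (affStr k A)) (G : ι → Glued R A)
    (hG : ∀ i, Nonempty (Glued.Iso (Δ.glued A (M i)) (G i)))
    (N₀ : RigidifiedLineBundle c ε (affStr k A)) (G₀ : Glued R A)
    (h₀ : Nonempty (Glued.Iso (Δ.glued A N₀) G₀)) :
    ∃ N, Nonempty (Glued.Iso (Δ.glued A N) (l.foldl (fun b i => b.diff (G i)) G₀)) ∧
      l.foldl (fun b i => Δ.affDiff A b (Quotient.mk _ (M i))) (Quotient.mk _ N₀) =
        Quotient.mk _ N := by
  induction l generalizing N₀ G₀ with
  | nil => exact ⟨N₀, h₀, rfl⟩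
  | cons i l ih =>
    obtain ⟨e⟩ := hG i
    obtain ⟨e₀⟩ := h₀
    obtain ⟨g⟩ := Δ.glued_diffBundle A N₀ (M i)
    exact ih (Δ.diffBundle A N₀ (M i)) (G₀.diff (G i)) ⟨g.trans (e₀.diff e)⟩

end Dict.Dictionary

variable [IsAlgClosed k]

/-- **Decomposition of glued bundles gives decomposition of classes.** -/
theorem exists_foldl_classDiff_eq {R : Chart.CurveRings k} (Δ : Dict.Dictionary c ε R)
    (hsep : BundlesSeparated c ε) (hglue : BundlesGlue c ε) (Q : SubPicCondition c ε)
    (α : RigidifiedLineBundle.Classes c ε c)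
    (G : SchemeHomOver (Dict.affStr k k) c → Chart.Glued R k)
    (hG : ∀ p, ∃ M : RigidifiedLineBundle c ε (Dict.affStr k k),
      Quotient.mk _ M = RigidifiedLineBundle.classesMap p α ∧
        Nonempty (Chart.Glued.Iso (Δ.glued k M) (G p)))
    (hdec : ∀ M : RigidifiedLineBundle c ε (Dict.affStr k k), Q.P _ M →
      ∃ l : List (SchemeHomOver (Dict.affStr k k) c), Nonempty (Chart.Glued.Iso (Δ.glued k M)
        (l.foldl (fun b p => b.diff (G p)) (Chart.Glued.trivial R k))))
    (x : RigidifiedLineBundle c ε (𝟙 (Spec (CommRingCat.of k)))) (hx : Q.P _ x) :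
    ∃ l : List (SchemeHomOver (𝟙 (Spec (CommRingCat.of k))) c),
      l.foldl (fun b p => (Δ.classDiff hsep hglue).diff _ b (RigidifiedLineBundle.classesMap p α))
        (unitCls _) = Quotient.mk _ x := by
  choose M₁ hM₁ hM₁G using hG
  let τ : SchemeHomOver (𝟙 (Spec (CommRingCat.of k))) (Dict.affStr k k) :=
    ⟨𝟙 _, by rw [affStr_self_eq, Category.comp_id]⟩
  let σ : SchemeHomOver (Dict.affStr k k) (𝟙 (Spec (CommRingCat.of k))) :=
    ⟨𝟙 _, by rw [affStr_self_eq, Category.comp_id]⟩
  obtain ⟨l, hl⟩ := hdec (x.pullbackAlong σ) (Q.pullback_mem _ _ σ x hx)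
  let pt : SchemeHomOver (Dict.affStr k k) c → SchemeHomOver (𝟙 (Spec (CommRingCat.of k))) c :=
    fun p => ⟨p.1, p.2.trans affStr_self_eq⟩
  refine ⟨l.map pt, ?_⟩
  obtain ⟨N, ⟨eN⟩, hN⟩ := Δ.exists_foldl_affDiff k l M₁ G hM₁G
    (RigidifiedLineBundle.unit _) _ (Δ.unit_iso k)
  have hg : RigidifiedLineBundle.classesMap σ (Quotient.mk _ x) = Quotient.mk _ N := by
    obtain ⟨el⟩ := hl
    exact Quotient.sound ((Δ.iso_iff k _ _).1 ⟨el.trans eN.symm⟩)
  have hx0 : Quotient.mk _ x =
      RigidifiedLineBundle.classesMap (c := c) (ε := ε) τ (Quotient.mk _ N) := by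
    rw [← hg]
    exact ((classesMap_classesMap σ τ ⟨𝟙 _, Category.id_comp _⟩ (Category.id_comp _) _).trans
      (classesMap_of_eq_id _ rfl _)).symm
  refine Eq.trans ?_ hx0.symm
  rw [← hN]
  simp only [hM₁, ← Δ.specDiff_affStr hsep hglue k]
  refine Eq.trans ?_ ((Δ.classDiff hsep hglue).map_foldl τ l _ _).symm
  rw [List.foldl_map, show RigidifiedLineBundle.classesMap (c := c) (ε := ε) τ
    (Quotient.mk _ (RigidifiedLineBundle.unit _)) = unitCls _ from classesMap_unitCls τ]
  congr 1
  funext b p
  rw [classesMap_classesMap p τ (pt p) (Category.id_comp _)]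

/-- **Properness of the piece of zero**, in the form used by the assembly of the Jacobian, when
iterated differences of the classes of points exhaust the classes satisfying the cut. -/
theorem isProper_of_decomposition [IsProper c] [GeometricallyIntegral c] {R : Chart.CurveRings k}
    (Δ : Dict.Dictionary c ε R) (hsep : BundlesSeparated c ε) (hglue : BundlesGlue c ε)
    {Φ : PointProperty c ε}
    (hQ : ∀ {T : Scheme.{u}} (t : T ⟶ Spec (CommRingCat.of k)) (M : RigidifiedLineBundle c ε t),
      FibrewiseAlgEquivZero M → (pointCut Φ).P t M)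
    (α : RigidifiedLineBundle.Classes c ε c)
    (hα : RigidifiedLineBundle.classesMap ε α = unitCls _)
    (G : SchemeHomOver (Dict.affStr k k) c → Chart.Glued R k)
    (hG : ∀ p, ∃ M : RigidifiedLineBundle c ε (Dict.affStr k k),
      Quotient.mk _ M = RigidifiedLineBundle.classesMap p α ∧
        Nonempty (Chart.Glued.Iso (Δ.glued k M) (G p)))
    (hdec : ∀ M : RigidifiedLineBundle c ε (Dict.affStr k k), (pointCut Φ).P _ M →
      ∃ l : List (SchemeHomOver (Dict.affStr k k) c), Nonempty (Chart.Glued.Iso (Δ.glued k M)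
        (l.foldl (fun b p => b.diff (G p)) (Chart.Glued.trivial R k)))) :
    ∀ (D₀ D : RelativePic0Designation k c),
      RepresentsRelSubPic c ε (pointCut Φ) D₀ →
      RepresentsRelSubPic c ε (algEquivZeroCut c ε) D →
      LocallyOfFinitePresentation D₀.toBase → GeometricallyIntegral D.toBase → Smooth D.toBase →
      ∀ e : D.P ⟶ D₀.P, IsOpenImmersion e → IsClosedImmersion e → e ≫ D₀.toBase = D.toBase →
        IsProper D.toBase := by
  intro D₀ D _ hD _ hgi hs e _ _ _
  exact isProper_of_classDiff hD (Δ.classDiff hsep hglue) α hα fun g =>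
    exists_foldl_classDiff_eq Δ hsep hglue (pointCut Φ) α G hG hdec (hD.poincare.pullbackAlong g)
      (hQ _ _ ((algEquivZeroCut c ε).pullback_mem _ _ g _ hD.poincare_mem))

end Fermat.Agent.Row24

end
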