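import Fermat.Agent.Row24.AlgEquiv
import Fermat.Agent.Row24.GeomPoints
import Fermat.Agent.Row24.Crit.Proper
import Fermat.Agent.Row24.SheafAdapter
import Mathlib.RingTheory.Ideal.KrullsHeightTheorem

/-!
# Properness of the scheme of algebraically trivial classes

A difference of classes gives a difference morphism, hence separatedness. Iterating it on the Abel
class gives proper integral schemes with increasing closed irreducible images; in a noetherian
chart through zero these correspond to descending primes, so they stabilise, and they contain all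
rational points.
-/

set_option autoImplicit false

noncomputable section

universe u

open CategoryTheory CategoryTheory.Limits AlgebraicGeometry AlgebraicGeometry.RelPicard
  NeronModelInfra GoodReductionJacobian

namespace Fermat.Agent.Row24

variable {k : Type u} [Field k] {C : Scheme.{u}} {c : C ⟶ Spec (CommRingCat.of k)}
  {ε : SchemeHomOver (𝟙 (Spec (CommRingCat.of k))) c}

/-- The class of the trivial bundle. -/
def unitCls {T : Scheme.{u}} (t : T ⟶ Spec (CommRingCat.of k)) :
    RigidifiedLineBundle.Classes c ε t :=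
  Quotient.mk _ (RigidifiedLineBundle.unit t)

/-- A natural difference operation on rigidified classes. -/
structure ClassDiff (c : C ⟶ Spec (CommRingCat.of k))
    (ε : SchemeHomOver (𝟙 (Spec (CommRingCat.of k))) c) : Type (u + 1) where
  /-- The difference of two classes. -/
  diff : ∀ {T : Scheme.{u}} (t : T ⟶ Spec (CommRingCat.of k)),
    RigidifiedLineBundle.Classes c ε t → RigidifiedLineBundle.Classes c ε t →
      RigidifiedLineBundle.Classes c ε t
  map_diff : ∀ {T T' : Scheme.{u}} {t : T ⟶ Spec (CommRingCat.of k)}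
    {t' : T' ⟶ Spec (CommRingCat.of k)} (ψ : SchemeHomOver t' t)
    (a b : RigidifiedLineBundle.Classes c ε t),
    RigidifiedLineBundle.classesMap ψ (diff t a b) =
      diff t' (RigidifiedLineBundle.classesMap ψ a) (RigidifiedLineBundle.classesMap ψ b)
  diff_self : ∀ {T : Scheme.{u}} (t : T ⟶ Spec (CommRingCat.of k))
    (a : RigidifiedLineBundle.Classes c ε t), diff t a a = unitCls t
  diff_unit : ∀ {T : Scheme.{u}} (t : T ⟶ Spec (CommRingCat.of k))
    (a : RigidifiedLineBundle.Classes c ε t), diff t a (unitCls t) = a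
  eq_of_diff : ∀ {T : Scheme.{u}} (t : T ⟶ Spec (CommRingCat.of k))
    (a b : RigidifiedLineBundle.Classes c ε t), diff t a b = unitCls t → a = b

theorem classesMap_unitCls {T T' : Scheme.{u}} {t : T ⟶ Spec (CommRingCat.of k)}
    {t' : T' ⟶ Spec (CommRingCat.of k)} (ψ : SchemeHomOver t' t) :
    RigidifiedLineBundle.classesMap (c := c) (ε := ε) ψ (unitCls t) = unitCls t' :=
  Quotient.sound ⟨Scheme.Modules.pullbackUnitIso _⟩

theorem classesMap_classesMap {T T' T'' : Scheme.{u}} {t : T ⟶ Spec (CommRingCat.of k)}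
    {t' : T' ⟶ Spec (CommRingCat.of k)} {t'' : T'' ⟶ Spec (CommRingCat.of k)}
    (ψ : SchemeHomOver t' t) (χ : SchemeHomOver t'' t') (θ : SchemeHomOver t'' t)
    (h : χ.1 ≫ ψ.1 = θ.1) (a : RigidifiedLineBundle.Classes c ε t) :
    RigidifiedLineBundle.classesMap χ (RigidifiedLineBundle.classesMap ψ a) =
      RigidifiedLineBundle.classesMap θ a := by
  induction a using Quotient.ind with
  | _ M => exact Quotient.sound (nonempty_pullbackAlong_iso M ψ χ θ h)

variable {D : RelativePic0Designation k c}
  (h : RepresentsRelSubPic c ε (algEquivZeroCut c ε) D)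

/-- The class of a point of the representing scheme. -/
def ptCls {T : Scheme.{u}} {t : T ⟶ Spec (CommRingCat.of k)} (g : SchemeHomOver t D.toBase) :
    RigidifiedLineBundle.Classes c ε t :=
  Quotient.mk _ (h.poincare.pullbackAlong g)

theorem classesMap_ptCls {T T' : Scheme.{u}} {t : T ⟶ Spec (CommRingCat.of k)}
    {t' : T' ⟶ Spec (CommRingCat.of k)} (g : SchemeHomOver t D.toBase)
    (χ : SchemeHomOver t' t) (θ : SchemeHomOver t' D.toBase) (e : χ.1 ≫ g.1 = θ.1) :
    RigidifiedLineBundle.classesMap χ (ptCls h g) = ptCls h θ :=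
  Quotient.sound (nonempty_pullbackAlong_iso h.poincare g χ θ e)

theorem ptCls_inj {T : Scheme.{u}} {t : T ⟶ Spec (CommRingCat.of k)}
    {g g' : SchemeHomOver t D.toBase} (e : ptCls h g = ptCls h g') : g = g' :=
  h.ext_of_iso t g g' (Quotient.exact e)

theorem ptCls_zero {T : Scheme.{u}} {t : T ⟶ Spec (CommRingCat.of k)}
    (g : SchemeHomOver t D.toBase) (e : g.1 = t ≫ D.zeroSection) : ptCls h g = unitCls t := by
  rw [← classesMap_ptCls h ⟨D.zeroSection, D.zeroSection_toBase⟩
    (⟨t, Category.comp_id _⟩ : SchemeHomOver t (𝟙 _)) g e.symm]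
  have h0 : ptCls h ⟨D.zeroSection, D.zeroSection_toBase⟩ = unitCls (𝟙 _) := Quotient.sound h.zero
  rw [h0]
  exact classesMap_unitCls _

/-- A class on an integral family which is trivial at a rational point is classified. -/
theorem exists_ptCls_eq {T : Scheme.{u}} {t : T ⟶ Spec (CommRingCat.of k)} [LocallyOfFiniteType t]
    [GeometricallyIntegral t] (a : RigidifiedLineBundle.Classes c ε t)
    (p : SchemeHomOver (𝟙 (Spec (CommRingCat.of k))) t)
    (hp : RigidifiedLineBundle.classesMap p a = unitCls _) :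
    ∃ g : SchemeHomOver t D.toBase, ptCls h g = a := by
  induction a using Quotient.ind with
  | _ M =>
    have hM : FibrewiseAlgEquivZero M :=
      fibrewiseAlgEquivZero_of_family (h := t) (𝟙 _) (Category.comp_id _) M.L M.isInvertible p p.2
        (Quotient.exact hp) ⟨𝟙 _, Category.id_comp _⟩ M
        ⟨((Scheme.Modules.pullbackCongr (baseChangeSnd_id c t)).app M.L ≪≫
          (Scheme.Modules.pullbackId _).app M.L).symm⟩
    exact ⟨h.classify t M hM, Quotient.sound (h.classify_spec t M hM)⟩

/-- Closed irreducible sets through a point, increasing along `ℕ`, stabilise. -/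
theorem exists_stable {X : Scheme.{u}} [IsLocallyNoetherian X] {Z : ℕ → Set X} {o : X}
    (hclosed : ∀ n, IsClosed (Z n)) (hirr : ∀ n, IsIrreducible (Z n)) (ho : ∀ n, o ∈ Z n)
    (hmono : Monotone Z) : ∃ N, ∀ n, N ≤ n → Z n = Z N := by
  classical
  obtain ⟨U, hU, hoU, -⟩ :=
    exists_isAffineOpen_mem_and_subset (X := X) (x := o) (U := ⊤) trivial
  have : IsNoetherianRing Γ(X, U) :=
    IsLocallyNoetherian.component_noetherian (⟨U, hU⟩ : X.affineOpens)
  let S : ℕ → Set (PrimeSpectrum Γ(X, U)) := fun n => hU.fromSpec ⁻¹' Z n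
  have himg : ∀ n, hU.fromSpec '' S n = Z n ∩ U := fun n => by
    exact Set.image_preimage_eq_inter_range.trans (congrArg (Z n ∩ ·) hU.range_fromSpec)
  have hS : ∀ n, IsIrreducible (S n) := fun n => by
    refine ⟨?_, ((hirr n).2).preimage hU.fromSpec.isOpenEmbedding⟩
    obtain ⟨q, hq⟩ : o ∈ Set.range hU.fromSpec := by rw [hU.range_fromSpec]; exact hoU
    exact ⟨q, show hU.fromSpec q ∈ Z n by rw [hq]; exact ho n⟩
  let P : ℕ → Ideal Γ(X, U) := fun n => PrimeSpectrum.vanishingIdeal (S n)
  have hP : ∀ n, (P n).IsPrime := fun n =>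
    PrimeSpectrum.isIrreducible_iff_vanishingIdeal_isPrime.mp (hS n)
  have hanti : ∀ m n, m ≤ n → P n ≤ P m := fun m n hmn =>
    PrimeSpectrum.vanishingIdeal_anti_mono (Set.preimage_mono (hmono hmn))
  have := hP
  have hfin : ∀ n, (P n).height ≠ ⊤ := fun n =>
    Ideal.height_ne_top (hP n).ne_top
  have hex : ∃ v, ∃ n, (P n).height.toNat = v := ⟨_, 0, rfl⟩
  obtain ⟨N, hN⟩ := Nat.find_spec hex
  refine ⟨N, fun n hn => ?_⟩
  have heq : P n = P N := by
    refine eq_of_le_of_not_lt (hanti N n hn) fun hlt => ?_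
    have : (P N).FiniteHeight := ⟨Or.inr (hfin N)⟩
    have h1 := Ideal.height_strict_mono_of_isPrime_of_isPrime hlt
    have h2 : (P n).height.toNat < (P N).height.toNat := by
      obtain ⟨a, ha⟩ := ENat.ne_top_iff_exists.mp (hfin n)
      obtain ⟨b, hb⟩ := ENat.ne_top_iff_exists.mp (hfin N)
      rw [← ha, ← hb] at h1 ⊢
      simpa using h1
    exact absurd h2 (not_lt.mpr (hN.symm ▸ Nat.find_min' hex ⟨n, rfl⟩))
  have hSeq : S n = S N := by
    have hc : ∀ i, PrimeSpectrum.zeroLocus (P i : Set Γ(X, U)) = S i := fun i => by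
      rw [PrimeSpectrum.zeroLocus_vanishingIdeal_eq_closure]
      exact ((hclosed i).preimage hU.fromSpec.continuous).closure_eq
    rw [← hc, ← hc, heq]
  refine Set.Subset.antisymm ?_ (hmono hn)
  calc Z n ⊆ closure (Z n ∩ U) :=
        subset_closure_inter_of_isPreirreducible_of_isOpen (hirr n).2 U.2 ⟨o, ho n, hoU⟩
    _ = closure (Z N ∩ U) := by rw [← himg, ← himg, hSeq]
    _ ⊆ Z N := (hclosed N).closure_subset_iff.mpr Set.inter_subset_left

variable [IsAlgClosed k]

/-- The difference morphism. -/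
theorem exists_diff (Δ : ClassDiff c ε) [LocallyOfFiniteType D.toBase]
    [GeometricallyIntegral D.toBase] :
    ∃ m : SchemeHomOver (pullback.fst D.toBase D.toBase ≫ D.toBase) D.toBase,
      ∀ {T : Scheme.{u}} (t : T ⟶ Spec (CommRingCat.of k)) (g g' θ : SchemeHomOver t D.toBase),
        pullback.lift g.1 g'.1 (g.2.trans g'.2.symm) ≫ m.1 = θ.1 →
          ptCls h θ = Δ.diff t (ptCls h g) (ptCls h g') := by
  have : IsIntegral D.P := GeometricallyIntegral.isIntegral_of_subsingleton D.toBase
  have : IsLocallyNoetherian D.P := LocallyOfFiniteType.isLocallyNoetherian D.toBase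
  have := geometricallyIntegral_of_isIntegral (pullback.fst D.toBase D.toBase ≫ D.toBase)
  let z : SchemeHomOver (𝟙 (Spec (CommRingCat.of k))) D.toBase :=
    ⟨D.zeroSection, D.zeroSection_toBase⟩
  let p₁ : SchemeHomOver (pullback.fst D.toBase D.toBase ≫ D.toBase) D.toBase :=
    ⟨pullback.fst _ _, rfl⟩
  let p₂ : SchemeHomOver (pullback.fst D.toBase D.toBase ≫ D.toBase) D.toBase :=
    ⟨pullback.snd _ _, pullback.condition.symm⟩
  obtain ⟨m, hm⟩ := exists_ptCls_eq h (Δ.diff _ (ptCls h p₁) (ptCls h p₂))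
    ⟨pullback.lift z.1 z.1 rfl, by rw [pullback.lift_fst_assoc]; exact z.2⟩ (by
      rw [Δ.map_diff, classesMap_ptCls h p₁ _ z (pullback.lift_fst _ _ _),
        classesMap_ptCls h p₂ _ z (pullback.lift_snd _ _ _), Δ.diff_self])
  refine ⟨m, fun t g g' θ hθ => ?_⟩
  let l : SchemeHomOver t (pullback.fst D.toBase D.toBase ≫ D.toBase) :=
    ⟨pullback.lift g.1 g'.1 (g.2.trans g'.2.symm), by rw [pullback.lift_fst_assoc]; exact g.2⟩
  rw [← classesMap_ptCls h m l θ hθ, hm, Δ.map_diff,
    classesMap_ptCls h p₁ l g (pullback.lift_fst _ _ _),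
    classesMap_ptCls h p₂ l g' (pullback.lift_snd _ _ _)]

/-- A proper integral scheme over the representing scheme. -/
structure Stage (D : RelativePic0Designation k c) : Type (u + 1) where
  /-- The scheme. -/
  Y : Scheme.{u}
  /-- Its structure map. -/
  y : Y ⟶ Spec (CommRingCat.of k)
  isProper : IsProper y
  isIntegral : IsIntegral Y
  /-- The map to the representing scheme. -/
  φ : SchemeHomOver y D.toBase

/-- **Properness of the representing scheme** from a difference operation and an Abel class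
generating all rational classes. -/
theorem isProper_of_classDiff [IsProper c] [GeometricallyIntegral c]
    [LocallyOfFiniteType D.toBase] [GeometricallyIntegral D.toBase] (Δ : ClassDiff c ε)
    (α : RigidifiedLineBundle.Classes c ε c)
    (hα : RigidifiedLineBundle.classesMap ε α = unitCls _)
    (hgen : ∀ g : SchemeHomOver (𝟙 (Spec (CommRingCat.of k))) D.toBase,
      ∃ l : List (SchemeHomOver (𝟙 (Spec (CommRingCat.of k))) c),
        l.foldl (fun b p => Δ.diff _ b (RigidifiedLineBundle.classesMap p α)) (unitCls _) =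
          ptCls h g) :
    IsProper D.toBase := by
  classical
  have : IsIntegral D.P := GeometricallyIntegral.isIntegral_of_subsingleton D.toBase
  have : IsLocallyNoetherian D.P := LocallyOfFiniteType.isLocallyNoetherian D.toBase
  obtain ⟨m, hm⟩ := exists_diff h Δ
  have : IsSeparated D.toBase :=
    Crit.isSeparated_of_sub_field D.toBase D.zeroSection D.zeroSection_toBase m.1 m.2
      fun {T} t g g' => by
        let θ : SchemeHomOver t D.toBase :=
          ⟨pullback.lift g.1 g'.1 (g.2.trans g'.2.symm) ≫ m.1,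
            by rw [Category.assoc, m.2, pullback.lift_fst_assoc]; exact g.2⟩
        have hθ := hm t g g' θ rfl
        refine ⟨fun e => ?_, fun e => ?_⟩
        · rw [ptCls_zero h θ e] at hθ
          exact congrArg Subtype.val (ptCls_inj h (Δ.eq_of_diff t _ _ hθ.symm))
        · obtain rfl : g = g' := Subtype.ext e
          rw [Δ.diff_self] at hθ
          let z : SchemeHomOver t D.toBase := ⟨t ≫ D.zeroSection, by
            rw [Category.assoc, D.zeroSection_toBase, Category.comp_id]⟩
          exact congrArg Subtype.val (ptCls_inj h (hθ.trans (ptCls_zero h z rfl).symm))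
  obtain ⟨a, ha⟩ := exists_ptCls_eq h α ε hα
  let o := D.zeroSection (IsLocalRing.closedPoint k)
  -- one step
  have hstep : ∀ s : Stage D, ∃ s' : Stage D, Set.range s.φ.1 ⊆ Set.range s'.φ.1 ∧
      ∀ (q : SchemeHomOver (𝟙 (Spec (CommRingCat.of k))) s.y)
        (p : SchemeHomOver (𝟙 (Spec (CommRingCat.of k))) c)
        (g : SchemeHomOver (𝟙 (Spec (CommRingCat.of k))) D.toBase), q.1 ≫ s.φ.1 = g.1 →
        ∃ (q' : SchemeHomOver (𝟙 (Spec (CommRingCat.of k))) s'.y)
          (g' : SchemeHomOver (𝟙 (Spec (CommRingCat.of k))) D.toBase), q'.1 ≫ s'.φ.1 = g'.1 ∧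
          ptCls h g' = Δ.diff _ (ptCls h g) (RigidifiedLineBundle.classesMap p α) := by
    intro s
    have := s.isProper
    have := s.isIntegral
    have : IsLocallyNoetherian s.Y := LocallyOfFiniteType.isLocallyNoetherian s.y
    let l : pullback s.y c ⟶ pullback D.toBase D.toBase :=
      pullback.map _ _ _ _ s.φ.1 a.1 (𝟙 _) (by rw [Category.comp_id, s.φ.2])
        (by rw [Category.comp_id, a.2])
    have hl : ∀ {T : Scheme.{u}} (f₁ : T ⟶ s.Y) (f₂ : T ⟶ C) (w : f₁ ≫ s.y = f₂ ≫ c),
        pullback.lift f₁ f₂ w ≫ l ≫ m.1 = pullback.lift (f₁ ≫ s.φ.1) (f₂ ≫ a.1)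
          (by rw [Category.assoc, Category.assoc, s.φ.2, a.2, w]) ≫ m.1 := fun f₁ f₂ w => by
      rw [← Category.assoc]
      congr 1
      apply pullback.hom_ext <;>
        simp [l, pullback.map, pullback.lift_fst, pullback.lift_snd, pullback.lift_fst_assoc, pullback.lift_snd_assoc]
    let s' : Stage D :=
      { Y := pullback s.y c
        y := pullback.fst s.y c ≫ s.y
        isProper := inferInstance
        isIntegral := inferInstance
        φ := ⟨l ≫ m.1, by
          rw [Category.assoc, m.2]
          simp [l, pullback.map, pullback.lift_fst_assoc, s.φ.2]⟩ }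
    refine ⟨s', ?_, fun q p g hg => ?_⟩
    · let σ : s.Y ⟶ pullback s.y c := pullback.lift (𝟙 _) (s.y ≫ ε.1)
        (by rw [Category.id_comp, Category.assoc, ε.2, Category.comp_id])
      let θ : SchemeHomOver s.y D.toBase := ⟨σ ≫ l ≫ m.1, by
        rw [Category.assoc, Category.assoc, m.2]
        simp [σ, l, pullback.map, pullback.lift_fst_assoc, s.φ.2]⟩
      let g₂ : SchemeHomOver s.y D.toBase := ⟨(s.y ≫ ε.1) ≫ a.1, by
        rw [Category.assoc, a.2, Category.assoc, ε.2, Category.comp_id]⟩
      have hg₂ : ptCls h g₂ = unitCls s.y := by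
        rw [← classesMap_ptCls h a (⟨s.y ≫ ε.1, by rw [Category.assoc, ε.2, Category.comp_id]⟩ :
          SchemeHomOver s.y c) g₂ rfl, ha, ← classesMap_classesMap ε
          (⟨s.y, Category.comp_id _⟩ : SchemeHomOver s.y (𝟙 _))
          (⟨s.y ≫ ε.1, by rw [Category.assoc, ε.2, Category.comp_id]⟩ : SchemeHomOver s.y c) rfl,
          hα, classesMap_unitCls]
      have hθ := hm s.y s.φ g₂ θ (by
        show _ = σ ≫ l ≫ m.1
        rw [hl]
        apply congrArg (· ≫ m.1)
        apply pullback.hom_ext <;> simp [g₂, pullback.lift_fst, pullback.lift_snd])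
      rw [hg₂, Δ.diff_unit] at hθ
      rintro _ ⟨x, rfl⟩
      refine ⟨σ x, ?_⟩
      show (σ ≫ l ≫ m.1) x = _
      exact congr($(congrArg Subtype.val (ptCls_inj h hθ)) x)
    · let g₂ : SchemeHomOver (𝟙 (Spec (CommRingCat.of k))) D.toBase :=
        ⟨p.1 ≫ a.1, by rw [Category.assoc, a.2, p.2]⟩
      let g' : SchemeHomOver (𝟙 (Spec (CommRingCat.of k))) D.toBase :=
        ⟨pullback.lift g.1 g₂.1 (g.2.trans g₂.2.symm) ≫ m.1,
          by rw [Category.assoc, m.2, pullback.lift_fst_assoc]; exact g.2⟩
      refine ⟨⟨pullback.lift q.1 p.1 (q.2.trans p.2.symm), by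
        show _ ≫ pullback.fst s.y c ≫ s.y = _
        rw [pullback.lift_fst_assoc]; exact q.2⟩, g', ?_, ?_⟩
      · show pullback.lift q.1 p.1 _ ≫ l ≫ m.1 = _
        rw [hl]
        congr 1
        apply pullback.hom_ext <;> simp [g₂, pullback.lift_fst, pullback.lift_snd, hg]
      · rw [hm _ g g₂ g' rfl, ← classesMap_ptCls h a p g₂ rfl, ha]
  choose next hsub hnext using hstep
  let s₀ : Stage D :=
    { Y := Spec (CommRingCat.of k)
      y := 𝟙 _
      isProper := inferInstance
      isIntegral := inferInstance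
      φ := ⟨D.zeroSection, D.zeroSection_toBase⟩ }
  let s : ℕ → Stage D := fun n => next^[n] s₀
  have hsucc : ∀ n, s (n + 1) = next (s n) := fun n => Function.iterate_succ_apply' next n s₀
  have hmono : Monotone fun n => Set.range (s n).φ.1 :=
    monotone_nat_of_le_succ fun n => by
      show Set.range (s n).φ.1 ⊆ Set.range (s (n + 1)).φ.1
      rw [hsucc]
      exact hsub _
  have ho : ∀ n, o ∈ Set.range (s n).φ.1 := fun n =>
    hmono (Nat.zero_le n) ⟨IsLocalRing.closedPoint k, rfl⟩
  have hclosed : ∀ n, IsClosed (Set.range (s n).φ.1) := fun n => by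
    have := (s n).isProper
    have : UniversallyClosed ((s n).φ.1 ≫ D.toBase) := by rw [(s n).φ.2]; infer_instance
    have : UniversallyClosed (s n).φ.1 := .of_comp_of_isSeparated _ D.toBase
    exact (s n).φ.1.isClosedMap.isClosed_range
  have hirr : ∀ n, IsIrreducible (Set.range (s n).φ.1) := fun n => by
    have := (s n).isIntegral
    rw [← Set.image_univ]
    exact (IrreducibleSpace.isIrreducible_univ _).image _
      (Scheme.Hom.continuous _).continuousOn
  have hreach : ∀ l : List (SchemeHomOver (𝟙 (Spec (CommRingCat.of k))) c),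
      ∃ (q : SchemeHomOver (𝟙 (Spec (CommRingCat.of k))) (s l.length).y)
        (g : SchemeHomOver (𝟙 (Spec (CommRingCat.of k))) D.toBase),
        q.1 ≫ (s l.length).φ.1 = g.1 ∧ ptCls h g =
          l.foldl (fun b p => Δ.diff _ b (RigidifiedLineBundle.classesMap p α)) (unitCls _) := by
    intro l
    induction l using List.reverseRecOn with
    | nil =>
      exact ⟨⟨𝟙 _, Category.id_comp _⟩, ⟨D.zeroSection, D.zeroSection_toBase⟩,
        Category.id_comp _, Quotient.sound h.zero⟩
    | append_singleton l p ih =>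
      obtain ⟨q, g, hqg, hg⟩ := ih
      rw [List.length_append, List.length_singleton, hsucc, List.foldl_append]
      obtain ⟨q', g', h', hg'⟩ := hnext _ q p g hqg
      exact ⟨q', g', h', by rw [hg', hg]; rfl⟩
  obtain ⟨N, hN⟩ := exists_stable hclosed hirr ho hmono
  have := (s N).isProper
  have : UniversallyClosed ((s N).φ.1 ≫ D.toBase) := by rw [(s N).φ.2]; infer_instance
  refine Crit.isProper_of_forall_point D.toBase (s N).φ.1 fun g => ?_
  obtain ⟨l, hl⟩ := hgen g
  obtain ⟨q, g', hq, hg'⟩ := hreach l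
  obtain rfl := ptCls_inj h (hg'.trans hl)
  have hmem : g'.1 (IsLocalRing.closedPoint k) ∈ Set.range (s N).φ.1 := by
    rw [← hN (max N l.length) (le_max_left _ _)]
    exact hmono (le_max_right N l.length)
      ⟨q.1 (IsLocalRing.closedPoint k), congr($hq (IsLocalRing.closedPoint k))⟩
  have : JacobsonSpace (s N).Y := LocallyOfFiniteType.jacobsonSpace (s N).y
  have hx : IsClosed ({g'.1 (IsLocalRing.closedPoint k)} : Set D.P) :=
    (pointEquivClosedPoint D.toBase ⟨g'.1, g'.2⟩).2
  obtain ⟨y, hy, hyc⟩ := nonempty_inter_closedPoints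
    (Z := (s N).φ.1 ⁻¹' {g'.1 (IsLocalRing.closedPoint k)}) hmem
    (hx.preimage (s N).φ.1.continuous).isLocallyClosed
  have hyc' : IsClosed ({y} : Set (s N).Y) := hyc
  refine ⟨pointOfClosedPoint (s N).y y hyc', ?_⟩
  refine ext_of_apply_closedPoint_eq D.toBase ?_ g'.2 ?_
  · rw [Category.assoc, (s N).φ.2]
    exact pointOfClosedPoint_comp _ _ _
  · exact (congrArg (s N).φ.1 (pointOfClosedPoint_apply (s N).y y hyc' _)).trans hy

omit [IsAlgClosed k] in
/-- Classes agreeing on the affine opens inside two members of a cover glue. -/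
theorem exists_class_of_cover (hsep : BundlesSeparated c ε) (hglue : BundlesGlue c ε)
    {T : Scheme.{u}} (t : T ⟶ Spec (CommRingCat.of k)) {ι : Type u} (U : ι → T.Opens)
    (hU : iSup U = ⊤) (x : ∀ i, RigidifiedLineBundle.Classes c ε ((U i).ι ≫ t))
    (hx : ∀ (i j : ι) (W : T.Opens) (hi : W ≤ U i) (hj : W ≤ U j), IsAffineOpen W →
      RigidifiedLineBundle.classesMap (leOver t hi) (x i) =
        RigidifiedLineBundle.classesMap (leOver t hj) (x j)) :
    ∃ a : RigidifiedLineBundle.Classes c ε t,
      ∀ i, RigidifiedLineBundle.classesMap (openOver t (U i)) a = x i := by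
  choose M hM using fun i => Quotient.exists_rep (x i)
  obtain ⟨N, hN⟩ := hglue t U hU M fun i j => by
    let V : T.Opens := U i ⊓ U j
    let W : V.toScheme.affineCover.I₀ → (V : Scheme.{u}).Opens := fun m =>
      (V.toScheme.affineCover.f m).opensRange
    refine hsep _ W (Scheme.OpenCover.iSup_opensRange V.toScheme.affineCover) _ _ fun m => ?_
    have haff : IsAffineOpen (V.ι ''ᵁ W m) :=
      (isAffineOpen_opensRange (V.toScheme.affineCover.f m)).image_of_isOpenImmersion V.ι
    have hi : V.ι ''ᵁ W m ≤ U i := (V.ι_image_le _).trans inf_le_left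
    have hj : V.ι ''ᵁ W m ≤ U j := (V.ι_image_le _).trans inf_le_right
    have h1 := hx i j _ hi hj haff
    rw [← hM i, ← hM j] at h1
    let e := (V.ι.isoImage (W m)).hom
    let ψ : SchemeHomOver ((W m).ι ≫ V.ι ≫ t) ((V.ι ''ᵁ W m).ι ≫ t) :=
      ⟨e, by rw [← Category.assoc, ← Category.assoc]; simp [e]⟩
    have h2 := congrArg (RigidifiedLineBundle.classesMap ψ) h1
    have key : ∀ (l : ι) (hl : V.ι ''ᵁ W m ≤ U l) (hVl : V ≤ U l),
        RigidifiedLineBundle.classesMap ψ
            (RigidifiedLineBundle.classesMap (leOver t hl) (Quotient.mk _ (M l))) =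
          Quotient.mk _ (((M l).pullbackAlong (leOver t hVl)).pullbackAlong
            (openOver (V.ι ≫ t) (W m))) := fun l hl hVl => by
      let θ : SchemeHomOver ((W m).ι ≫ V.ι ≫ t) ((U l).ι ≫ t) :=
        ⟨(W m).ι ≫ T.homOfLE hVl, by simp [Category.assoc]⟩
      refine (classesMap_classesMap (leOver t hl) ψ θ (by
        rw [← cancel_mono (U l).ι]; simp [θ, ψ, e, Category.assoc]) _).trans ?_
      exact (Quotient.sound (nonempty_pullbackAlong_iso (M l) (leOver t hVl)
        (openOver (V.ι ≫ t) (W m)) θ rfl)).symm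
    rw [key i hi inf_le_left, key j hj inf_le_right] at h2
    exact Quotient.exact h2
  exact ⟨Quotient.mk _ N, fun i => (Quotient.sound (hN i)).trans (hM i)⟩

end Fermat.Agent.Row24

end
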