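import Fermat.Agent.Row24.Proper.Main

/-!
# Difference operations from affine test schemes

A natural difference on classes over affine test schemes extends to all test schemes when
rigidified bundles form a sheaf, and keeps its laws.
-/

set_option autoImplicit false

noncomputable section

universe u

open CategoryTheory CategoryTheory.Limits AlgebraicGeometry AlgebraicGeometry.RelPicard
  NeronModelInfra GoodReductionJacobian

namespace Fermat.Agent.Row24

variable {k : Type u} [Field k] {C : Scheme.{u}} {c : C ⟶ Spec (CommRingCat.of k)}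
  {ε : SchemeHomOver (𝟙 (Spec (CommRingCat.of k))) c}

/-- A natural difference operation on classes over affine test schemes. -/
structure AffineClassDiff (c : C ⟶ Spec (CommRingCat.of k))
    (ε : SchemeHomOver (𝟙 (Spec (CommRingCat.of k))) c) : Type (u + 1) where
  /-- The difference of two classes. -/
  diff : ∀ {A : CommRingCat.{u}} (a : Spec A ⟶ Spec (CommRingCat.of k)),
    RigidifiedLineBundle.Classes c ε a → RigidifiedLineBundle.Classes c ε a →
      RigidifiedLineBundle.Classes c ε a
  map_diff : ∀ {A A' : CommRingCat.{u}} {a : Spec A ⟶ Spec (CommRingCat.of k)}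
    {a' : Spec A' ⟶ Spec (CommRingCat.of k)} (ψ : SchemeHomOver a' a)
    (x y : RigidifiedLineBundle.Classes c ε a),
    RigidifiedLineBundle.classesMap ψ (diff a x y) =
      diff a' (RigidifiedLineBundle.classesMap ψ x) (RigidifiedLineBundle.classesMap ψ y)
  diff_self : ∀ {A : CommRingCat.{u}} (a : Spec A ⟶ Spec (CommRingCat.of k))
    (x : RigidifiedLineBundle.Classes c ε a), diff a x x = unitCls a
  diff_unit : ∀ {A : CommRingCat.{u}} (a : Spec A ⟶ Spec (CommRingCat.of k))
    (x : RigidifiedLineBundle.Classes c ε a), diff a x (unitCls a) = x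
  eq_of_diff : ∀ {A : CommRingCat.{u}} (a : Spec A ⟶ Spec (CommRingCat.of k))
    (x y : RigidifiedLineBundle.Classes c ε a), diff a x y = unitCls a → x = y

section Sheaf

variable {T : Scheme.{u}} (t : T ⟶ Spec (CommRingCat.of k))

/-- An affine open as an affine test scheme. -/
abbrev specOver {W : T.Opens} (hW : IsAffineOpen W) : SchemeHomOver (hW.fromSpec ≫ t) t :=
  ⟨hW.fromSpec, rfl⟩

/-- The inverse chart of an affine open. -/
abbrev chartOver {W : T.Opens} (hW : IsAffineOpen W) :
    SchemeHomOver (W.ι ≫ t) (hW.fromSpec ≫ t) :=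
  ⟨hW.isoSpec.hom, by
    rw [← Category.assoc, ← hW.isoSpec_inv_ι, Iso.hom_inv_id_assoc]⟩

/-- Classes with equal restrictions to affine opens around all points are equal. -/
theorem eq_of_forall_affine (hsep : BundlesSeparated c ε)
    (x y : RigidifiedLineBundle.Classes c ε t)
    (hxy : ∀ q : T, ∃ W : T.Opens, ∃ hW : IsAffineOpen W, q ∈ W ∧
      RigidifiedLineBundle.classesMap (specOver t hW) x =
        RigidifiedLineBundle.classesMap (specOver t hW) y) : x = y := by
  choose W hW hqW hWxy using hxy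
  induction x using Quotient.ind with
  | _ M =>
    induction y using Quotient.ind with
    | _ M' =>
      refine Quotient.sound (hsep t W (TopologicalSpace.Opens.ext
        (Set.eq_univ_of_forall fun q => TopologicalSpace.Opens.mem_iSup.mpr ⟨q, hqW q⟩)) M M'
        fun q => ?_)
      have h1 := congrArg (RigidifiedLineBundle.classesMap (chartOver t (hW q))) (hWxy q)
      have hfac : (chartOver t (hW q)).1 ≫ (specOver t (hW q)).1 = (openOver t (W q)).1 := by
        show (hW q).isoSpec.hom ≫ (hW q).fromSpec = (W q).ι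
        rw [← (hW q).isoSpec_inv_ι, Iso.hom_inv_id_assoc]
      exact Quotient.exact (((classesMap_classesMap _ _ (openOver t (W q)) hfac _).symm.trans
        h1).trans (classesMap_classesMap _ _ (openOver t (W q)) hfac _))

end Sheaf

namespace AffineClassDiff

variable [IsAlgClosed k] (Δ : AffineClassDiff c ε)

/-- A class restricting to the affine differences. -/
def Spec' {T : Scheme.{u}} (t : T ⟶ Spec (CommRingCat.of k))
    (u v z : RigidifiedLineBundle.Classes c ε t) : Prop :=
  ∀ {A : CommRingCat.{u}} (a : Spec A ⟶ Spec (CommRingCat.of k)) (p : SchemeHomOver a t),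
    RigidifiedLineBundle.classesMap p z =
      Δ.diff a (RigidifiedLineBundle.classesMap p u) (RigidifiedLineBundle.classesMap p v)

omit [IsAlgClosed k] in
theorem unique (hsep : BundlesSeparated c ε) {T : Scheme.{u}} {t : T ⟶ Spec (CommRingCat.of k)}
    {u v z z' : RigidifiedLineBundle.Classes c ε t} (hz : Δ.Spec' t u v z)
    (hz' : Δ.Spec' t u v z') : z = z' :=
  eq_of_forall_affine t hsep z z' fun q => by
    obtain ⟨W, hW, hqW, -⟩ :=
      exists_isAffineOpen_mem_and_subset (X := T) (x := q) (U := ⊤) trivial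
    exact ⟨W, hW, hqW, (hz _ _).trans (hz' _ _).symm⟩

omit [IsAlgClosed k] in
theorem exists_spec (hsep : BundlesSeparated c ε) (hglue : BundlesGlue c ε) {T : Scheme.{u}}
    (t : T ⟶ Spec (CommRingCat.of k)) (u v : RigidifiedLineBundle.Classes c ε t) :
    ∃ z, Δ.Spec' t u v z := by
  let d : ∀ W : T.affineOpens, RigidifiedLineBundle.Classes c ε (W.2.fromSpec ≫ t) := fun W =>
    Δ.diff _ (RigidifiedLineBundle.classesMap (specOver t W.2) u)
      (RigidifiedLineBundle.classesMap (specOver t W.2) v)
  let x : ∀ W : T.affineOpens, RigidifiedLineBundle.Classes c ε (W.1.ι ≫ t) := fun W =>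
    RigidifiedLineBundle.classesMap (chartOver t W.2) (d W)
  -- naturality
  have hnat : ∀ (W : T.affineOpens) {A : CommRingCat.{u}} (a : Spec A ⟶ Spec (CommRingCat.of k))
      (χ : SchemeHomOver a (W.2.fromSpec ≫ t)) (p : SchemeHomOver a t),
      χ.1 ≫ W.2.fromSpec = p.1 → RigidifiedLineBundle.classesMap χ (d W) =
        Δ.diff a (RigidifiedLineBundle.classesMap p u) (RigidifiedLineBundle.classesMap p v) :=
    fun W A a χ p e => by
      rw [Δ.map_diff, classesMap_classesMap (specOver t W.2) χ p e,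
        classesMap_classesMap (specOver t W.2) χ p e]
  have hres : ∀ (V W : T.affineOpens) (hVW : V.1 ≤ W.1),
      RigidifiedLineBundle.classesMap (leOver t hVW) (x W) = x V := fun V W hVW => by
    have e1 : V.2.isoSpec.inv ≫ T.homOfLE hVW ≫ W.2.isoSpec.hom ≫ W.2.fromSpec =
        V.2.fromSpec := by
      rw [← W.2.isoSpec_inv_ι, Iso.hom_inv_id_assoc, Scheme.homOfLE_ι, V.2.isoSpec_inv_ι]
    let χ : SchemeHomOver (V.2.fromSpec ≫ t) (W.2.fromSpec ≫ t) :=
      ⟨V.2.isoSpec.inv ≫ T.homOfLE hVW ≫ W.2.isoSpec.hom, by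
        rw [← e1]; simp only [Category.assoc]⟩
    let θ : SchemeHomOver (V.1.ι ≫ t) (W.2.fromSpec ≫ t) :=
      ⟨T.homOfLE hVW ≫ (chartOver t W.2).1, by
        rw [Category.assoc, (chartOver t W.2).2, ← Category.assoc, Scheme.homOfLE_ι]⟩
    refine (classesMap_classesMap (chartOver t W.2) (leOver t hVW) θ rfl _).trans ?_
    refine (classesMap_classesMap χ (chartOver t V.2) θ (by
      show V.2.isoSpec.hom ≫ V.2.isoSpec.inv ≫ _ = _
      rw [Iso.hom_inv_id_assoc]) _).symm.trans ?_
    exact congrArg _ (hnat W _ χ (specOver t V.2) (by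
      show (V.2.isoSpec.inv ≫ T.homOfLE hVW ≫ W.2.isoSpec.hom) ≫ W.2.fromSpec = _
      rw [Category.assoc, Category.assoc, e1]))
  obtain ⟨z, hz⟩ := exists_class_of_cover hsep hglue t (fun W : T.affineOpens => W.1)
    (iSup_affineOpens_eq_top T) x fun W W' V hV hV' hVaff =>
      (hres ⟨V, hVaff⟩ W hV).trans (hres ⟨V, hVaff⟩ W' hV').symm
  have hzd : ∀ W : T.affineOpens, RigidifiedLineBundle.classesMap (specOver t W.2) z = d W := by
    intro W
    let ι' : SchemeHomOver (W.2.fromSpec ≫ t) (W.1.ι ≫ t) :=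
      ⟨W.2.isoSpec.inv, by rw [← Category.assoc, W.2.isoSpec_inv_ι]⟩
    refine (classesMap_classesMap (openOver t W.1) ι' (specOver t W.2)
      W.2.isoSpec_inv_ι z).symm.trans ?_
    rw [hz W]
    refine (classesMap_classesMap (chartOver t W.2) ι' ⟨𝟙 _, Category.id_comp _⟩
      W.2.isoSpec.inv_hom_id _).trans ?_
    refine (hnat W _ ⟨𝟙 _, Category.id_comp _⟩ (specOver t W.2) (Category.id_comp _))
  refine ⟨z, fun {A} a p => eq_of_forall_affine a hsep _ _ fun q => ?_⟩
  obtain ⟨W, hW, hqW, -⟩ :=
    exists_isAffineOpen_mem_and_subset (X := T) (x := p.1 q) (U := ⊤) trivial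
  obtain ⟨V, hV, hqV, hVW⟩ :=
    exists_isAffineOpen_mem_and_subset (X := Spec A) (x := q) (U := p.1 ⁻¹ᵁ W) hqW
  refine ⟨V, hV, hqV, ?_⟩
  have hr : Set.range (hV.fromSpec ≫ p.1) ⊆ Set.range hW.fromSpec := by
    rw [hW.range_fromSpec]
    rintro _ ⟨r, rfl⟩
    exact hVW (hV.range_fromSpec.subset ⟨r, rfl⟩)
  let p' : SchemeHomOver (hV.fromSpec ≫ a) t :=
    ⟨hV.fromSpec ≫ p.1, by rw [Category.assoc, p.2]⟩
  let χ : SchemeHomOver (hV.fromSpec ≫ a) (hW.fromSpec ≫ t) :=
    ⟨IsOpenImmersion.lift hW.fromSpec p'.1 hr, by rw [IsOpenImmersion.lift_fac_assoc]; exact p'.2⟩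
  rw [Δ.map_diff, classesMap_classesMap p (specOver a hV) p' rfl,
    classesMap_classesMap p (specOver a hV) p' rfl,
    classesMap_classesMap p (specOver a hV) p' rfl,
    ← classesMap_classesMap (specOver t hW) χ p' (IsOpenImmersion.lift_fac _ _ _), hzd ⟨W, hW⟩]
  exact hnat ⟨W, hW⟩ _ χ p' (IsOpenImmersion.lift_fac _ _ _)

/-- **The extension to all test schemes.** -/
def extend (hsep : BundlesSeparated c ε) (hglue : BundlesGlue c ε) : ClassDiff c ε where
  diff t u v := (Δ.exists_spec hsep hglue t u v).choose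
  map_diff {T T' t t'} ψ u v := by
    refine Δ.unique hsep (fun {A} a p => ?_) (Δ.exists_spec hsep hglue t' _ _).choose_spec
    let θ : SchemeHomOver a t := ⟨p.1 ≫ ψ.1, by rw [Category.assoc, ψ.2, p.2]⟩
    rw [classesMap_classesMap ψ p θ rfl, (Δ.exists_spec hsep hglue t u v).choose_spec a θ,
      classesMap_classesMap ψ p θ rfl, classesMap_classesMap ψ p θ rfl]
  diff_self {T} t u := by
    refine Δ.unique hsep (Δ.exists_spec hsep hglue t u u).choose_spec fun {A} a p => ?_
    rw [classesMap_unitCls, Δ.diff_self]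
  diff_unit {T} t u := by
    refine Δ.unique hsep (Δ.exists_spec hsep hglue t u (unitCls t)).choose_spec fun {A} a p => ?_
    rw [classesMap_unitCls, Δ.diff_unit]
  eq_of_diff {T} t u v e := by
    refine eq_of_forall_affine t hsep u v fun q => ?_
    obtain ⟨W, hW, hqW, -⟩ :=
      exists_isAffineOpen_mem_and_subset (X := T) (x := q) (U := ⊤) trivial
    refine ⟨W, hW, hqW, Δ.eq_of_diff _ _ _ ?_⟩
    rw [← (Δ.exists_spec hsep hglue t u v).choose_spec _ (specOver t hW), e, classesMap_unitCls]

omit [IsAlgClosed k] in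
/-- The extension agrees with the affine operation. -/
theorem extend_diff_affine (hsep : BundlesSeparated c ε) (hglue : BundlesGlue c ε)
    {A : CommRingCat.{u}} (a : Spec A ⟶ Spec (CommRingCat.of k))
    (x y : RigidifiedLineBundle.Classes c ε a) :
    (Δ.extend hsep hglue).diff a x y = Δ.diff a x y := by
  refine Δ.unique hsep (Δ.exists_spec hsep hglue a x y).choose_spec fun {A'} a' p => ?_
  exact Δ.map_diff p x y

end AffineClassDiff

end Fermat.Agent.Row24

end
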